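import Fermat.Agent.LT.A2.H467.WeilExSpec

/-!
# Row LT, tower A2, leaf A2.03.1.3 `WX467.RegC` -- THE CUT (owner / sub-architect helper753)

OFF-MAIN.  Definitions and frozen Props only (no holes, nothing assumed).  The PROVED top
`regC_of_leaves753` is in `RegTop.lean`.

    WX467.RegC  ⟸  DictC + ContProdC + SuppProdC + LatticeC + StdAAC + LocConstC
                     + ArchBoundC + ArchContC + FinCoverC

Notation: for a pair `(g, m)` the local functions are
`fI u = L.Finf u (infMat u g) (infMat u m)`, `fF v = L.Ffin v (finComp v g) (finComp v m)`, and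
`L.F g m = prodFn fI fF` (by definition).

* `DictC` (R0, abstract): a global admissible pair is locally admissible at every place.
* `ContProdC` (R1, abstract): a product of continuous local functions, standard at almost all
  finite places, is continuous on `𝔸_K²`.
* `SuppProdC` (R2, abstract): the finite part of such a product, with compactly supported
  factors, vanishes outside a compact subset of `𝔸_f²` and is bounded.
* `LatticeC` (R3, abstract): Gaussian sums over the points of `K²` whose finite part lies in a
  compact set are normally convergent on compact sets of translations.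
* `StdAAC` (R4): for an admissible pair almost all the finite local functions are `stdFn v`.
* `LocConstC` (R5): the finite local functions are locally constant in the admissible pair,
  uniformly in the place (a neighbourhood `U` of `1` in `G × G`).
* `ArchBoundC` (R6): uniform Gaussian bound of the infinite part on compact sets of pairs.
* `ArchContC` (R7): the infinite part is continuous in the admissible pair.
* `FinCoverC` (R8, abstract, topological groups): a compact set is covered by finitely many
  left translates `q U` with `q` in a given subset.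
-/

set_option autoImplicit false

open IsDedekindDomain NumberField AutomorphicForm MeasureTheory
open scoped MatrixGroups Topology

noncomputable section

namespace Fermat.Agent.LT.A2.H753

open Fermat.Agent.LT.H130 Fermat.Agent.LT.H556 Fermat.Agent.LT.A2 Fermat.Agent.LT.A2.WX467

/-- The infinite part of the product family at the pair `(g, m)` and the vector `ξ`. -/
def archPart {K : Type} [Field K] [NumberField K] (L : WData K) (g m : A0.G K)
    (ξ : A0.Adl K × A0.Adl K) : ℂ :=
  ∏ u : InfinitePlace K, L.Finf u (infMat u g) (infMat u m) (infVec u ξ)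

/-- The finite part of the product family at the pair `(g, m)` and the vector `ξ`. -/
def finPart {K : Type} [Field K] [NumberField K] (L : WData K) (g m : A0.G K)
    (ξ : A0.Adl K × A0.Adl K) : ℂ :=
  ∏ᶠ v : HeightOneSpectrum (𝓞 K), L.Ffin v (A0.finComp v g) (A0.finComp v m) (finVec v ξ)

/-- The sum of the squares of the norms of the infinite components of a vector of `𝔸_K²`. -/
def archSq {K : Type} [Field K] [NumberField K] (ξ : A0.Adl K × A0.Adl K) : ℝ :=
  ∑ w : InfinitePlace K, (‖ξ.1.1 w‖ ^ 2 + ‖ξ.2.1 w‖ ^ 2)

/-- The finite part of a vector of `𝔸_K²`. -/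
def finPt {K : Type} [Field K] [NumberField K] (ξ : A0.Adl K × A0.Adl K) :
    FiniteAdeleRing (𝓞 K) K × FiniteAdeleRing (𝓞 K) K :=
  (ξ.1.2, ξ.2.2)

/-- **R0 DICT (abstract).**  A global admissible pair is locally admissible at every place:
the components of `torMat`, of the determinant (a ring homomorphism applied to a matrix) and
`det ≠ 0` (the determinant of an element of `GL₂(𝔸_K)` is a unit). -/
def DictC : Prop :=
  ∀ (K : Type) [Field K] [NumberField K] (L : WData K) (g m : A0.G K), Adm L.t L.n g m →
    (∀ v : HeightOneSpectrum (𝓞 K),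
      AdmL (L.tfin v) (L.nfin v) (A0.finComp v g) (A0.finComp v m)) ∧
    ∀ u : InfinitePlace K, AdmL (L.tinf u) (L.ninf u) (infMat u g) (infMat u m)

/-- **R1 CONT-PROD (abstract).**  A product of continuous local functions which are standard
at almost all finite places is continuous on `𝔸_K²` (restricted product topology: the finite
part is the product of finitely many continuous factors and of the indicator function of an
open and closed set). -/
def ContProdC : Prop :=
  ∀ (K : Type) [Field K] [NumberField K]
    (f : ∀ u : InfinitePlace K, u.Completion × u.Completion → ℂ)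
    (f' : ∀ v : HeightOneSpectrum (𝓞 K), v.adicCompletion K × v.adicCompletion K → ℂ),
    (∀ u, Continuous (f u)) → (∀ v, Continuous (f' v)) →
    (∃ S : Finset (HeightOneSpectrum (𝓞 K)), ∀ v, v ∉ S → f' v = stdFn v) →
    Continuous (prodFn f f')

/-- **R2 SUPP-PROD (abstract).**  The finite part of a product of continuous, compactly
supported local functions which are standard at almost all places vanishes outside a compact
subset of `𝔸_f²` and is bounded. -/
def SuppProdC : Prop :=
  ∀ (K : Type) [Field K] [NumberField K]
    (f' : ∀ v : HeightOneSpectrum (𝓞 K), v.adicCompletion K × v.adicCompletion K → ℂ),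
    (∀ v, Continuous (f' v) ∧ HasCompactSupport (f' v)) →
    (∃ S : Finset (HeightOneSpectrum (𝓞 K)), ∀ v, v ∉ S → f' v = stdFn v) →
    ∃ (B : Set (FiniteAdeleRing (𝓞 K) K × FiniteAdeleRing (𝓞 K) K)) (M : ℝ),
      IsCompact B ∧ 0 ≤ M ∧ ∀ ξ : A0.Adl K × A0.Adl K,
        (finPt ξ ∉ B → (∏ᶠ v : HeightOneSpectrum (𝓞 K), f' v (finVec v ξ)) = 0) ∧
        ‖∏ᶠ v : HeightOneSpectrum (𝓞 K), f' v (finVec v ξ)‖ ≤ M

/-- **R3 LATTICE (abstract).**  Normal convergence of the Gaussian sums over the points `ξ` of
`K²`, translated by a compact set `C` of `𝔸_K²`, whose finite part lies in a compact set `B`: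
these points lie in a lattice `d⁻¹ 𝒪_K²` of `K_∞²`. -/
def LatticeC : Prop :=
  ∀ (K : Type) [Field K] [NumberField K]
    (B : Set (FiniteAdeleRing (𝓞 K) K × FiniteAdeleRing (𝓞 K) K))
    (C : Set (A0.Adl K × A0.Adl K)) (δ : ℝ), IsCompact B → IsCompact C → 0 < δ →
    ∃ b : K × K → ℝ, Summable b ∧ (∀ ξ, 0 ≤ b ξ) ∧
      ∀ (ξ : K × K) (x : A0.Adl K × A0.Adl K), x ∈ C → finPt (x + ratV ξ) ∈ B →
        Real.exp (-δ * archSq (x + ratV ξ)) ≤ b ξ

/-- **R4 STD-AA.**  For an admissible pair almost all the finite local functions are standard: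
at `v ∤ level` with `g_v`, `g_v⁻¹`, `m_v`, `m_v⁻¹` integral, `F_v(g_v, m_v) = F_v(1, 1)`
(`FinAt.right_inv`, `GoodAt.tlev`, the closure of the level at `v` is `𝒪_v`) `= stdFn v`
(`GoodAt.std`). -/
def StdAAC : Prop :=
  DictC →
  ∀ (K : Type) [Field K] [NumberField K] (L : WData K), L.IsGood →
    ∀ g m : A0.G K, Adm L.t L.n g m →
      ∃ S : Finset (HeightOneSpectrum (𝓞 K)), ∀ v, v ∉ S →
        L.Ffin v (A0.finComp v g) (A0.finComp v m) = stdFn v

/-- **R5 LOC-CONST.**  There is a neighbourhood `U` of `1` in `G × G` such that two admissible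
pairs `p`, `p'` with `p⁻¹ p' ∈ U` have the same finite local functions at EVERY place
(`FinAt.right_inv` for `k = g⁻¹ g'` in the level group, `κ = m⁻¹ m' ∈ Tlev v`: `tlev_nhds` at
the places dividing the level, `GoodAt.tlev` at the others). -/
def LocConstC : Prop :=
  DictC →
  ∀ (K : Type) [Field K] [NumberField K] (L : WData K), L.IsGood →
    ∃ U ∈ 𝓝 (1 : A0.G K × A0.G K), ∀ p p' : A0.G K × A0.G K,
      Adm L.t L.n p.1 p.2 → Adm L.t L.n p'.1 p'.2 → p⁻¹ * p' ∈ U →
      ∀ v : HeightOneSpectrum (𝓞 K),
        L.Ffin v (A0.finComp v p'.1) (A0.finComp v p'.2)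
          = L.Ffin v (A0.finComp v p.1) (A0.finComp v p.2)

/-- **R6 ARCH-BOUND.**  Uniform Gaussian bound of the infinite part on a compact set of pairs
(`CpxAt.decay`; the entries of `g`, `m`, `g⁻¹`, `m⁻¹` at the infinite places are bounded on a
compact set). -/
def ArchBoundC : Prop :=
  DictC →
  ∀ (K : Type) [Field K] [NumberField K] (L : WData K), L.IsGood →
    ∀ C : Set (A0.G K × A0.G K), IsCompact C →
      ∃ A δ : ℝ, 0 ≤ A ∧ 0 < δ ∧ ∀ p : A0.G K × A0.G K, p ∈ C → Adm L.t L.n p.1 p.2 →
        ∀ ξ : A0.Adl K × A0.Adl K, ‖archPart L p.1 p.2 ξ‖ ≤ A * Real.exp (-δ * archSq ξ)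

/-- **R7 ARCH-CONT.**  The infinite part is continuous in the admissible pair (`CpxAt.cont`
composed with the continuous maps `p ↦ infMat u p.1`, `p ↦ infMat u p.2`). -/
def ArchContC : Prop :=
  DictC →
  ∀ (K : Type) [Field K] [NumberField K] (L : WData K), L.IsGood →
    ∀ ξ : A0.Adl K × A0.Adl K,
      ContinuousOn (fun p : A0.G K × A0.G K => archPart L p.1 p.2 ξ)
        {p | Adm L.t L.n p.1 p.2}

/-- **R8 FIN-COVER (abstract, topological groups).**  A compact set `C` of a topological group
is covered by finitely many left translates `q U`, `U` a neighbourhood of `1`, with centres `q`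
in a given set `P`, as far as the points of `P` are concerned. -/
def FinCoverC : Prop :=
  ∀ (H : Type) [Group H] [TopologicalSpace H] [IsTopologicalGroup H]
    (C : Set H) (P : Set H) (U : Set H), IsCompact C → U ∈ 𝓝 (1 : H) →
    ∃ Q : Finset H, (∀ q ∈ Q, q ∈ P) ∧ ∀ p ∈ C, p ∈ P → ∃ q ∈ Q, q⁻¹ * p ∈ U

end Fermat.Agent.LT.A2.H753

end
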