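import Fermat.Agent.LT.A2.H905.StdAA
import Fermat.Agent.LT.T2.H131.WeakApprox

/-!
# Row LT, leaf A2.03.1.3.5 `H753.LocConstC` (R5) -- spare proof (helper753)

`locConstC753 : LocConstC`.  `U = N × N`, `N` the set of the `k ∈ G` such that `k`, `k⁻¹` are
integral at every finite place and, at the places `v` dividing the level, `k_v ≡ 1`,
`k_v⁻¹ ≡ 1` modulo the closure of the level and `k_v` lies in the neighbourhood of
`FinAt.tlev_nhds`.  For admissible pairs `p`, `p' = p (k, κ)`: `κ_v` is in the torus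
(`inTorL_mul753`, `inTorL_inv753`), `det k_v = det κ_v`, and `FinAt.right_inv` applies.

Uses (byte-identical copies): `H905/StdAA.lean` (helper905: `finComp_mul905`, `finComp_inv905`,
`mem_idealClosure_of_not_dvd905`, ...) and `T2/H131/WeakApprox.lean` (helper131: the closure of a
nonzero ideal contains a ball).
-/
set_option autoImplicit false

open IsDedekindDomain NumberField AutomorphicForm MeasureTheory
open scoped MatrixGroups Topology

noncomputable section

namespace Fermat.Agent.LT.A2.H753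

open Fermat.Agent.LT.H130 Fermat.Agent.LT.H556 Fermat.Agent.LT.A2 Fermat.Agent.LT.A2.WX467
open Fermat.Agent.LT.A2.H905

/-! ## The torus is stable under products and inverses -/

section Torus

variable {k : Type} [Field k]

theorem inTorL_mul753 (t n : k) {m m' : Matrix (Fin 2) (Fin 2) k} (h : InTorL t n m)
    (h' : InTorL t n m') : InTorL t n (m * m') := by
  obtain ⟨a, b, rfl⟩ := h
  obtain ⟨a', b', rfl⟩ := h'
  refine ⟨a * a' - n * b * b', a * b' + b * a' + t * b * b', ?_⟩
  unfold torMat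
  ext i j
  fin_cases i <;> fin_cases j <;> simp [Matrix.mul_apply, Fin.sum_univ_two] <;> ring

theorem inTorL_inv753 (t n : k) {m : Matrix (Fin 2) (Fin 2) k} (h : InTorL t n m) :
    InTorL t n m⁻¹ := by
  obtain ⟨a, b, rfl⟩ := h
  refine ⟨Ring.inverse (torMat t n a b).det * (a + t * b),
    Ring.inverse (torMat t n a b).det * (-b), ?_⟩
  rw [Matrix.inv_def]
  unfold torMat
  rw [Matrix.adjugate_fin_two_of]
  ext i j
  fin_cases i <;> fin_cases j <;> simp [Matrix.smul_apply] <;> ring

end Torus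

variable {K : Type} [Field K] [NumberField K]

/-! ## Continuity of the components -/

theorem continuous_finEntry753 (v : HeightOneSpectrum (𝓞 K)) (i j : Fin 2) :
    Continuous fun g : A0.G K => A0.finComp v g i j := by
  have h0 : Continuous fun g : A0.G K => (g : Matrix (Fin 2) (Fin 2) (A0.Adl K)) :=
    Units.continuous_val
  have h1 : Continuous fun g : A0.G K => (g : Matrix (Fin 2) (Fin 2) (A0.Adl K)) i j :=
    (continuous_apply j).comp ((continuous_apply i).comp h0)
  have h2 : Continuous fun x : A0.Adl K => x.2 := continuous_snd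
  have h3 : Continuous fun x : FiniteAdeleRing (𝓞 K) K => x v :=
    RestrictedProduct.continuous_eval v
  exact h3.comp (h2.comp h1)

theorem continuous_finAdEntry753 (i j : Fin 2) :
    Continuous fun g : A0.G K => ((g : Matrix (Fin 2) (Fin 2) (A0.Adl K)) i j).2 := by
  have h0 : Continuous fun g : A0.G K => (g : Matrix (Fin 2) (Fin 2) (A0.Adl K)) :=
    Units.continuous_val
  have h1 : Continuous fun g : A0.G K => (g : Matrix (Fin 2) (Fin 2) (A0.Adl K)) i j :=
    (continuous_apply j).comp ((continuous_apply i).comp h0)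
  exact continuous_snd.comp h1

theorem continuous_finComp753 (v : HeightOneSpectrum (𝓞 K)) :
    Continuous fun g : A0.G K => A0.finComp v g :=
  continuous_pi fun i => continuous_pi fun j => continuous_finEntry753 v i j

/-! ## Neighbourhoods of `1` -/

/-- Near `1` all the entries are integral at all the finite places. -/
theorem eventually_integral753 :
    ∀ᶠ g in 𝓝 (1 : A0.G K), ∀ (v : HeightOneSpectrum (𝓞 K)) (i j : Fin 2),
      A0.finComp v g i j ∈ v.adicCompletionIntegers K := by
  have hI : IsOpen {t : FiniteAdeleRing (𝓞 K) K | ∀ v, t v ∈ v.adicCompletionIntegers K} :=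
    RestrictedProduct.isOpen_forall_mem (fun v => Valued.isOpen_valuationSubring _)
  have h : ∀ i j : Fin 2, ∀ᶠ g in 𝓝 (1 : A0.G K), ∀ v : HeightOneSpectrum (𝓞 K),
      A0.finComp v g i j ∈ v.adicCompletionIntegers K := by
    intro i j
    have h1 : (fun g : A0.G K => ((g : Matrix (Fin 2) (Fin 2) (A0.Adl K)) i j).2) 1
        ∈ {t : FiniteAdeleRing (𝓞 K) K | ∀ v, t v ∈ v.adicCompletionIntegers K} := by
      intro v
      change ((1 : Matrix (Fin 2) (Fin 2) (A0.Adl K)) i j).2 v ∈ v.adicCompletionIntegers K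
      rw [Matrix.one_apply]
      split_ifs
      · exact one_mem _
      · exact zero_mem _
    exact (continuous_finAdEntry753 i j).continuousAt.eventually (hI.mem_nhds h1)
  filter_upwards [Filter.eventually_all.2 fun i => Filter.eventually_all.2 fun j => h i j]
    with g hg v i j
  exact hg i j v

/-- A property which holds near `1` holds for the inverses of the points near `1`. -/
theorem eventually_inv753 {P : A0.G K → Prop} (h : ∀ᶠ g in 𝓝 (1 : A0.G K), P g) :
    ∀ᶠ g in 𝓝 (1 : A0.G K), P g⁻¹ := by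
  have h1 := (continuous_inv (G := A0.G K)).tendsto 1
  rw [inv_one] at h1
  exact h1.eventually h

/-- The closure of a nonzero ideal is a neighbourhood of `0`. -/
theorem idealClosure_mem_nhds753 (𝔫 : Ideal (𝓞 K)) (h𝔫 : 𝔫 ≠ ⊥) (v : HeightOneSpectrum (𝓞 K)) :
    A0.idealClosure 𝔫 v ∈ 𝓝 (0 : v.adicCompletion K) := by
  obtain ⟨N, hN⟩ := T2.H131.exists_ball_subset_idealClosure_h131 𝔫 h𝔫 v
  obtain ⟨c, hc, hcv⟩ := T2.H131.exists_valued_eq_exp_h131 v (-(N : ℤ))
  refine Filter.mem_of_superset (T2.H131.ball_mem_nhds_h131 0 c hc) fun y hy => hN y ?_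
  have hy' : Valued.v (y - 0) < Valued.v c := hy
  rw [sub_zero, hcv] at hy'
  exact hy'.le

/-- Near `1` the components at `v` are `≡ 1` modulo the closure of a nonzero ideal. -/
theorem eventually_lev753 (𝔫 : Ideal (𝓞 K)) (h𝔫 : 𝔫 ≠ ⊥) (v : HeightOneSpectrum (𝓞 K)) :
    ∀ᶠ g in 𝓝 (1 : A0.G K), ∀ i j : Fin 2, (A0.finComp v g - 1) i j ∈ A0.idealClosure 𝔫 v := by
  refine Filter.eventually_all.2 fun i => Filter.eventually_all.2 fun j => ?_
  have hc : Continuous fun g : A0.G K =>
      A0.finComp v g i j - (1 : Matrix (Fin 2) (Fin 2) (v.adicCompletion K)) i j :=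
    (continuous_finEntry753 v i j).sub continuous_const
  have h0 : A0.finComp v (1 : A0.G K) i j
      - (1 : Matrix (Fin 2) (Fin 2) (v.adicCompletion K)) i j = 0 := by
    rw [finComp_one905, sub_self]
  have hca : Filter.Tendsto (fun g : A0.G K =>
      A0.finComp v g i j - (1 : Matrix (Fin 2) (Fin 2) (v.adicCompletion K)) i j)
      (𝓝 (1 : A0.G K)) (𝓝 0) := by
    have := hc.tendsto (1 : A0.G K)
    rwa [h0] at this
  exact hca.eventually (idealClosure_mem_nhds753 𝔫 h𝔫 v)

/-- Near `1` the component at `v` lies in a given neighbourhood of `1`. -/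
theorem eventually_nhds753 (v : HeightOneSpectrum (𝓞 K))
    {U : Set (Matrix (Fin 2) (Fin 2) (v.adicCompletion K))} (hU : U ∈ 𝓝 1) :
    ∀ᶠ g in 𝓝 (1 : A0.G K), A0.finComp v g ∈ U := by
  have hca : Filter.Tendsto (fun g : A0.G K => A0.finComp v g) (𝓝 (1 : A0.G K)) (𝓝 1) := by
    have := (continuous_finComp753 v).tendsto (1 : A0.G K)
    rwa [finComp_one905] at this
  exact hca.eventually hU

/-! ## The leaf -/

/-- The conditions on one factor `k` of a pair near `1`. -/
def NearOne (L : WData K)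
    (U : ∀ v : HeightOneSpectrum (𝓞 K), Set (Matrix (Fin 2) (Fin 2) (v.adicCompletion K)))
    (k : A0.G K) : Prop :=
  (∀ (v : HeightOneSpectrum (𝓞 K)) (i j : Fin 2),
      A0.finComp v k i j ∈ v.adicCompletionIntegers K) ∧
  (∀ (v : HeightOneSpectrum (𝓞 K)) (i j : Fin 2),
      A0.finComp v k⁻¹ i j ∈ v.adicCompletionIntegers K) ∧
  (∀ v : HeightOneSpectrum (𝓞 K), v.asIdeal ∣ L.π.level →
      (∀ i j : Fin 2, (A0.finComp v k - 1) i j ∈ A0.idealClosure L.π.level v) ∧
      (∀ i j : Fin 2, (A0.finComp v k⁻¹ - 1) i j ∈ A0.idealClosure L.π.level v) ∧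
      A0.finComp v k ∈ U v)

theorem eventually_nearOne753 (L : WData K)
    (U : ∀ v : HeightOneSpectrum (𝓞 K), Set (Matrix (Fin 2) (Fin 2) (v.adicCompletion K)))
    (hU : ∀ v, U v ∈ 𝓝 1) : ∀ᶠ k in 𝓝 (1 : A0.G K), NearOne L U k := by
  have hlev : {v : HeightOneSpectrum (𝓞 K) | v.asIdeal ∣ L.π.level}.Finite :=
    Ideal.finite_factors L.π.level_ne_bot
  have h3 : ∀ᶠ k in 𝓝 (1 : A0.G K),
      ∀ v ∈ {v : HeightOneSpectrum (𝓞 K) | v.asIdeal ∣ L.π.level},
      (∀ i j : Fin 2, (A0.finComp v k - 1) i j ∈ A0.idealClosure L.π.level v) ∧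
      (∀ i j : Fin 2, (A0.finComp v k⁻¹ - 1) i j ∈ A0.idealClosure L.π.level v) ∧
      A0.finComp v k ∈ U v := by
    rw [Filter.eventually_all_finite hlev]
    intro v _
    exact (eventually_lev753 L.π.level L.π.level_ne_bot v).and
      ((eventually_inv753 (eventually_lev753 L.π.level L.π.level_ne_bot v)).and
        (eventually_nhds753 v (hU v)))
  filter_upwards [eventually_integral753 (K := K), eventually_inv753 eventually_integral753, h3]
    with k h1 h2 h3
  exact ⟨h1, h2, fun v hv => h3 v hv⟩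

/-- **LEAF A2.03.1.3.5 `LocConstC`** (R5). -/
theorem locConstC753 : LocConstC := by
  intro hDict K _ _ L hgood
  classical
  -- the neighbourhoods of `tlev_nhds`
  choose U hU hUT using fun v : HeightOneSpectrum (𝓞 K) => (hgood.fin v).tlev_nhds
  have hN := eventually_nearOne753 L U hU
  refine ⟨{k | NearOne L U k} ×ˢ {k | NearOne L U k}, prod_mem_nhds hN hN, ?_⟩
  intro p p' hp hp' hpp' v
  obtain ⟨hk, hκ⟩ : NearOne L U (p.1⁻¹ * p'.1) ∧ NearOne L U (p.2⁻¹ * p'.2) := hpp'
  set k : A0.G K := p.1⁻¹ * p'.1 with hkdef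
  set κ : A0.G K := p.2⁻¹ * p'.2 with hκdef
  have hF := hgood.fin v
  obtain ⟨htor, hdet, hdet0⟩ := (hDict K L p.1 p.2 hp).1 v
  obtain ⟨htor', hdet', hdet0'⟩ := (hDict K L p'.1 p'.2 hp').1 v
  have e1 : A0.finComp v p'.1 = A0.finComp v p.1 * A0.finComp v k := by
    rw [← finComp_mul905, hkdef, mul_inv_cancel_left]
  have e2 : A0.finComp v p'.2 = A0.finComp v p.2 * A0.finComp v κ := by
    rw [← finComp_mul905, hκdef, mul_inv_cancel_left]
  -- the torus
  have hκtor : InTorL (L.tfin v) (L.nfin v) (A0.finComp v κ) := by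
    have h1 : A0.finComp v κ = (A0.finComp v p.2)⁻¹ * A0.finComp v p'.2 := by
      rw [finComp_inv905, ← finComp_mul905]
    rw [h1]
    exact inTorL_mul753 _ _ (inTorL_inv753 _ _ htor) htor'
  -- the determinants
  have hdetk : (A0.finComp v k).det = (A0.finComp v κ).det := by
    have h1 : (A0.finComp v p.1).det * (A0.finComp v k).det
        = (A0.finComp v p.1).det * (A0.finComp v κ).det := by
      rw [← Matrix.det_mul, ← e1, hdet', e2, Matrix.det_mul, hdet]
    have h2 : (A0.finComp v p.1).det ≠ 0 := finComp_det_ne_zero905 v p.1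
    exact mul_left_cancel₀ h2 h1
  -- the level groups
  have hInLev : InLevL L.π.level v (A0.finComp v k) := by
    refine ⟨finComp_det_ne_zero905 v k, fun i j => ?_⟩
    rw [finComp_inv905]
    by_cases hv : v.asIdeal ∣ L.π.level
    · exact ⟨(hk.2.2 v hv).1 i j, (hk.2.2 v hv).2.1 i j⟩
    · exact ⟨mem_idealClosure_of_not_dvd905 L.π.level v hv _
          (sub_one_integral905 v _ (hk.1 v) i j),
        mem_idealClosure_of_not_dvd905 L.π.level v hv _
          (sub_one_integral905 v _ (hk.2.1 v) i j)⟩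
  have hTlev : A0.finComp v κ ∈ L.Tlev v := by
    by_cases hv : v.asIdeal ∣ L.π.level
    · exact hUT v _ (hκ.2.2 v hv).2.2 hκtor
    · rw [(hgood.good v hv).tlev]
      refine ⟨hκtor, finComp_det_ne_zero905 v κ, hκ.1 v, ?_⟩
      rw [finComp_inv905]
      exact hκ.2.1 v
  funext ξ
  rw [e1, e2]
  exact hF.right_inv _ _ hInLev hTlev hdetk _ _ ξ ⟨htor, hdet, hdet0⟩

end Fermat.Agent.LT.A2.H753

end
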