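import Fermat.Agent.LT.A2.H753.RegSpec

/-!
# Row LT, tower A2, leaf A2.03.1.3 `WX467.RegC` -- the PROVED top (helper753)

    regC_of_leaves753 : DictC → ContProdC → SuppProdC → LatticeC → StdAAC → LocConstC →
      ArchBoundC → ArchContC → FinCoverC → WX467.RegC
-/

set_option autoImplicit false

open IsDedekindDomain NumberField AutomorphicForm MeasureTheory
open scoped MatrixGroups Topology

noncomputable section

namespace Fermat.Agent.LT.A2.H753

open Fermat.Agent.LT.H130 Fermat.Agent.LT.H556 Fermat.Agent.LT.A2 Fermat.Agent.LT.A2.WX467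

variable {K : Type} [Field K] [NumberField K]

/-- The product family is the product of its infinite part and of its finite part. -/
theorem F_eq753 (L : WData K) (g m : A0.G K) (ξ : A0.Adl K × A0.Adl K) :
    L.toKData.F g m ξ = archPart L g m ξ * finPart L g m ξ := rfl

/-- The finite part only depends on the finite local functions. -/
theorem finPart_congr753 (L : WData K) {g m g' m' : A0.G K}
    (h : ∀ v : HeightOneSpectrum (𝓞 K),
      L.Ffin v (A0.finComp v g') (A0.finComp v m') = L.Ffin v (A0.finComp v g) (A0.finComp v m))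
    (ξ : A0.Adl K × A0.Adl K) : finPart L g' m' ξ = finPart L g m ξ := by
  unfold finPart
  exact finprod_congr fun v => by rw [h v]

/-- Uniform support and bound of the finite part on a compact set of pairs. -/
theorem uniform_fin753 (hDict : DictC) (hSupp : SuppProdC) (hStd : StdAAC) (hLoc : LocConstC)
    (hFC : FinCoverC) (L : WData K) (hgood : L.IsGood)
    (C : Set (A0.G K × A0.G K)) (hC : IsCompact C) :
    ∃ (B : Set (FiniteAdeleRing (𝓞 K) K × FiniteAdeleRing (𝓞 K) K)) (M : ℝ),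
      IsCompact B ∧ 0 ≤ M ∧ ∀ p : A0.G K × A0.G K, p ∈ C → Adm L.t L.n p.1 p.2 →
        ∀ ξ : A0.Adl K × A0.Adl K,
          (finPt ξ ∉ B → finPart L p.1 p.2 ξ = 0) ∧ ‖finPart L p.1 p.2 ξ‖ ≤ M := by
  obtain ⟨U, hU, hUc⟩ := hLoc hDict K L hgood
  obtain ⟨Q, hQP, hQ⟩ := hFC (A0.G K × A0.G K) C {p | Adm L.t L.n p.1 p.2} U hC hU
  have hq : ∀ q ∈ Q, ∃ (B : Set (FiniteAdeleRing (𝓞 K) K × FiniteAdeleRing (𝓞 K) K)) (M : ℝ),
      IsCompact B ∧ 0 ≤ M ∧ ∀ ξ : A0.Adl K × A0.Adl K,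
        (finPt ξ ∉ B → finPart L q.1 q.2 ξ = 0) ∧ ‖finPart L q.1 q.2 ξ‖ ≤ M := by
    intro q hqQ
    have hadm : Adm L.t L.n q.1 q.2 := hQP q hqQ
    have hloc := (hDict K L q.1 q.2 hadm).1
    exact hSupp K (fun v => L.Ffin v (A0.finComp v q.1) (A0.finComp v q.2))
      (fun v => ⟨(hgood.fin v).ax.cont _ _ (hloc v), ((hgood.fin v).sb _ _ (hloc v)).2⟩)
      (hStd hDict K L hgood q.1 q.2 hadm)
  choose! Bq Mq hBq using hq
  refine ⟨⋃ q ∈ Q, Bq q, ∑ q ∈ Q, Mq q, Q.isCompact_biUnion fun q hqQ => (hBq q hqQ).1,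
    Finset.sum_nonneg fun q hqQ => (hBq q hqQ).2.1, ?_⟩
  intro p hp hadm ξ
  obtain ⟨q, hqQ, hqU⟩ := hQ p hp hadm
  have hfin : finPart L p.1 p.2 ξ = finPart L q.1 q.2 ξ :=
    finPart_congr753 L (hUc q p (hQP q hqQ) hadm hqU) ξ
  rw [hfin]
  refine ⟨fun hnot => ((hBq q hqQ).2.2 ξ).1 fun hin => hnot ?_, ?_⟩
  · exact Set.mem_biUnion hqQ hin
  · exact (((hBq q hqQ).2.2 ξ).2).trans
      (Finset.single_le_sum (f := Mq) (fun r hr => (hBq r hr).2.1) hqQ)

/-- **The top of the leaf `RegC`.** -/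
theorem regC_of_leaves753 (hDict : DictC) (hCont : ContProdC) (hSupp : SuppProdC)
    (hLat : LatticeC) (hStd : StdAAC) (hLoc : LocConstC) (hAB : ArchBoundC) (hAC : ArchContC)
    (hFC : FinCoverC) : RegC := by
  intro K _ _ L _ hgood
  -- the local facts at an admissible pair
  have hfc : ∀ g m : A0.G K, Adm L.t L.n g m → ∀ v : HeightOneSpectrum (𝓞 K),
      Continuous (L.Ffin v (A0.finComp v g) (A0.finComp v m)) := fun g m h v =>
    (hgood.fin v).ax.cont _ _ ((hDict K L g m h).1 v)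
  have hic : ∀ g m : A0.G K, Adm L.t L.n g m → ∀ u : InfinitePlace K,
      Continuous (L.Finf u (infMat u g) (infMat u m)) := fun g m h u =>
    (hgood.cpx u).ax.cont _ _ ((hDict K L g m h).2 u)
  -- the bound of the family on a compact set of pairs
  have hbound : ∀ C : Set (A0.G K × A0.G K), IsCompact C →
      ∃ (B : Set (FiniteAdeleRing (𝓞 K) K × FiniteAdeleRing (𝓞 K) K)) (A δ : ℝ),
        IsCompact B ∧ 0 ≤ A ∧ 0 < δ ∧
        ∀ p : A0.G K × A0.G K, p ∈ C → Adm L.t L.n p.1 p.2 → ∀ ξ : A0.Adl K × A0.Adl K,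
          (finPt ξ ∉ B → L.toKData.F p.1 p.2 ξ = 0) ∧
          ‖L.toKData.F p.1 p.2 ξ‖ ≤ A * Real.exp (-δ * archSq ξ) := by
    intro C hC
    obtain ⟨B, M, hB, hM, hBM⟩ := uniform_fin753 hDict hSupp hStd hLoc hFC L hgood C hC
    obtain ⟨A, δ, hA, hδ, hAδ⟩ := hAB hDict K L hgood C hC
    refine ⟨B, A * M, δ, hB, mul_nonneg hA hM, hδ, fun p hp hadm ξ => ⟨fun hnot => ?_, ?_⟩⟩
    · rw [F_eq753, (hBM p hp hadm ξ).1 hnot, mul_zero]
    · rw [F_eq753, norm_mul]
      calc ‖archPart L p.1 p.2 ξ‖ * ‖finPart L p.1 p.2 ξ‖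
          ≤ (A * Real.exp (-δ * archSq ξ)) * M :=
            mul_le_mul (hAδ p hp hadm ξ) (hBM p hp hadm ξ).2 (norm_nonneg _)
              (mul_nonneg hA (Real.exp_pos _).le)
        _ = A * M * Real.exp (-δ * archSq ξ) := by ring
  -- summability on a compact set of pairs and a compact set of translations
  have hsum : ∀ (C : Set (A0.G K × A0.G K)) (C' : Set (A0.Adl K × A0.Adl K)), IsCompact C →
      IsCompact C' → ∃ b : K × K → ℝ, Summable b ∧
        ∀ (ξ : K × K) (p : A0.G K × A0.G K) (x : A0.Adl K × A0.Adl K), p ∈ C →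
          Adm L.t L.n p.1 p.2 → x ∈ C' → ‖L.toKData.F p.1 p.2 (x + ratV ξ)‖ ≤ b ξ := by
    intro C C' hC hC'
    obtain ⟨B, A, δ, hB, hA, hδ, hBA⟩ := hbound C hC
    obtain ⟨b, hb, hb0, hbb⟩ := hLat K B C' δ hB hC' hδ
    refine ⟨fun ξ => A * b ξ, hb.mul_left A, fun ξ p x hp hadm hx => ?_⟩
    by_cases hin : finPt (x + ratV ξ) ∈ B
    · exact ((hBA p hp hadm _).2).trans (mul_le_mul_of_nonneg_left (hbb ξ x hx hin) hA)
    · rw [(hBA p hp hadm _).1 hin, norm_zero]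
      exact mul_nonneg hA (hb0 ξ)
  refine ⟨⟨?_, ?_, ?_, ?_, ?_⟩, ?_⟩
  · -- cont
    intro g m h
    exact hCont K _ _ (hic g m h) (hfc g m h) (hStd hDict K L hgood g m h)
  · -- integrable
    intro g m h
    exact (hgood.prod_int.2 _ _
      (fun u => ⟨hic g m h u, (hgood.cpx u).ax.integrable _ _ ((hDict K L g m h).2 u)⟩)
      (fun v => ⟨hfc g m h v, (hgood.fin v).ax.integrable _ _ ((hDict K L g m h).1 v)⟩)
      (hStd hDict K L hgood g m h)).1
  · -- shift_summable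
    intro g m h C hC
    obtain ⟨b, hb, hbb⟩ := hsum {(g, m)} C isCompact_singleton hC
    exact ⟨b, hb, fun ξ x hx => hbb ξ (g, m) x rfl h hx⟩
  · -- cont_pair
    intro ξ p₀ hp₀
    obtain ⟨U, hU, hUc⟩ := hLoc hDict K L hgood
    have hA : ContinuousWithinAt (fun p : A0.G K × A0.G K => archPart L p.1 p.2 ξ)
        {p | Adm L.t L.n p.1 p.2} p₀ := hAC hDict K L hgood ξ p₀ hp₀
    have hnhds : {p : A0.G K × A0.G K | p₀⁻¹ * p ∈ U} ∈ 𝓝 p₀ := by
      have hc : ContinuousAt (fun p : A0.G K × A0.G K => p₀⁻¹ * p) p₀ :=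
        (continuous_const.mul continuous_id).continuousAt
      have h1 : (fun p : A0.G K × A0.G K => p₀⁻¹ * p) p₀ = 1 := inv_mul_cancel p₀
      exact hc (by rw [h1]; exact hU)
    have hev : (fun p : A0.G K × A0.G K => L.toKData.F p.1 p.2 ξ)
        =ᶠ[𝓝[{p | Adm L.t L.n p.1 p.2}] p₀]
        fun p => archPart L p.1 p.2 ξ * finPart L p₀.1 p₀.2 ξ := by
      filter_upwards [mem_nhdsWithin_of_mem_nhds hnhds, self_mem_nhdsWithin] with p hpU hp
      rw [F_eq753, finPart_congr753 L (hUc p₀ p hp₀ hp hpU) ξ]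
    exact (hA.mul continuousWithinAt_const).congr_of_eventuallyEq hev (F_eq753 L p₀.1 p₀.2 ξ)
  · -- loc_summable
    intro C hC
    obtain ⟨b, hb, hbb⟩ := hsum C {0} hC isCompact_singleton
    refine ⟨b, hb, fun ξ p hp hadm => ?_⟩
    have := hbb ξ p 0 hp hadm rfl
    rwa [zero_add] at this
  · -- DecayOut
    intro C hC
    obtain ⟨B, A, δ, hB, hA, hδ, hBA⟩ := hbound C hC
    exact ⟨B, A, δ, hB, hδ, fun p hp hadm ξ => hBA p hp hadm ξ⟩

end Fermat.Agent.LT.A2.H753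

end
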